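import Fermat.Agent.S18.Mod.Defs
import Fermat.Agent.A2.H708.Tame
import Fermat.Agent.S18.H602.Descent

/-!
# A2 / DESC (concrete part): the arithmetic Galois action on the concrete S18 objects

`Ω = Om N = modularFunctionFieldBar N`, `g_σ = arithmeticRingAut σ` (action through coefficients).

* T1 `galOm_mem_Ec`, `galOm_mem_Fc`, `galOm_jd`      : `σ E ⊆ E` ⟹ `g_σ` preserves `Ec`, `Fc`.
* T2 `galOm_mem_Rc`, `galOm_mem_VcSet`               : `σ` in the decomposition group of `A`.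
* T3 `galOm_sub_mem_McRc`, `galOm_sub_mem_McSet`     : `σ` in the inertia group of `A`:
     `g_σ r - r` is a non-unit constant, `g_σ f - f` lies in the maximal ideal `McSet` of `VcSet`.
-/

set_option autoImplicit false

noncomputable section

namespace Fermat.Agent.A2.H549

open ModularCurve AlgebraicCurve HahnSeries Fermat.Agent.S18 Fermat.Agent.S18.Mod

variable (N : ℕ)

/-- the Galois action on `Ω = Om N` through the coefficients -/
abbrev galOm (σ : Qb ≃ₐ[ℚ] Qb) : Om N ≃+* Om N :=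
  arithmeticRingAut (modularFunctionFieldFull N) σ

theorem coe_galOm (σ : Qb ≃ₐ[ℚ] Qb) (f : Om N) :
    ((galOm N σ f : Om N) : LaurentSeries Qb) = coeffMap (σ : Qb →+* Qb) (f : LaurentSeries Qb) :=
  rfl

theorem galOm_algebraMap (σ : Qb ≃ₐ[ℚ] Qb) (c : Qb) :
    galOm N σ (algebraMap Qb (Om N) c) = algebraMap Qb (Om N) (σ c) :=
  arithmeticRingAut_algebraMap (modularFunctionFieldFull N) σ c

theorem galOm_jd (σ : Qb ≃ₐ[ℚ] Qb) (d : ℕ) [NeZero d] (hd : d ∣ N) :
    galOm N σ (jd N d hd) = jd N d hd := by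
  apply Subtype.ext
  show coeffMap (σ : Qb →+* Qb) (coeffEmb Qb (qExpand ℚ d jq)) = _
  rw [coeffMap_coeffEmb]
  rfl

theorem galOm_mem_Lc (σ : Qb ≃ₐ[ℚ] Qb) {f : Om N} (hf : f ∈ Lc N) : galOm N σ f ∈ Lc N := by
  obtain ⟨c, rfl⟩ := hf
  exact ⟨σ c, (galOm_algebraMap N σ c).symm⟩

/-- T1: `g_σ` preserves the constants from `E`. -/
theorem galOm_mem_Ec (σ : Qb ≃ₐ[ℚ] Qb) {E : IntermediateField ℚ Qb} (hE : ∀ a ∈ E, σ a ∈ E)
    {f : Om N} (hf : f ∈ Ec N E) : galOm N σ f ∈ Ec N E := by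
  obtain ⟨c, hc, rfl⟩ := hf
  exact ⟨σ c, hE c hc, (galOm_algebraMap N σ c).symm⟩

/-- T1: `g_σ` preserves `Fc = E(j_d)`. -/
theorem galOm_mem_Fc (σ : Qb ≃ₐ[ℚ] Qb) {E : IntermediateField ℚ Qb} (hE : ∀ a ∈ E, σ a ∈ E)
    {f : Om N} (hf : f ∈ Fc N E) : galOm N σ f ∈ Fc N E := by
  have hle : Fc N E ≤ (Fc N E).comap (galOm N σ : Om N →+* Om N) := by
    refine Subfield.closure_le.mpr ?_
    rintro y (hy | hy)
    · exact Subfield.subset_closure (Or.inl (galOm_mem_Ec N σ hE hy))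
    · obtain ⟨d, hne, hd, rfl⟩ := hy
      show galOm N σ (jd N d hd) ∈ Fc N E
      rw [galOm_jd]
      exact Subfield.subset_closure (Or.inr ⟨d, hne, hd, rfl⟩)
  exact hle hf

/-- T2: `g_σ` preserves the constants from `A ∩ E` (`σ` in the decomposition group of `A`). -/
theorem galOm_mem_Rc {σ : Qb ≃ₐ[ℚ] Qb} {A : ValuationSubring Qb}
    (hσ : σ ∈ A.decompositionSubgroup ℚ) {E : IntermediateField ℚ Qb} (hE : ∀ a ∈ E, σ a ∈ E)
    {f : Om N} (hf : f ∈ Rc N A E) : galOm N σ f ∈ Rc N A E := by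
  obtain ⟨c, ⟨hcA, hcE⟩, rfl⟩ := hf
  exact ⟨σ c, ⟨H708.apply_mem_of_mem_decomposition A hσ hcA, hE c hcE⟩,
    (galOm_algebraMap N σ c).symm⟩


/-! ## Series over `A` -/

section series

variable {N}
variable {A : ValuationSubring Qb} {E : IntermediateField ℚ Qb}

/-- the subring `A ∩ E` of `A` -/
def AE (A : ValuationSubring Qb) (E : IntermediateField ℚ Qb) : Subring A :=
  E.toSubfield.toSubring.comap A.subtype

theorem mem_AE {x : A} : x ∈ AE A E ↔ (x : Qb) ∈ E := Iff.rfl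

/-- coefficients in `E` ⟺ the series comes from a series over `A ∩ E`. -/
theorem coeff_mem_iff_range (U : LaurentSeries A) :
    (∀ n : ℤ, ((U.coeff n : A) : Qb) ∈ E) ↔ U ∈ (coeffMap (AE A E).subtype).range := by
  constructor
  · intro h
    obtain ⟨x, hx⟩ := H602.exists_coeffMap_eq (AE A E).subtype Subtype.val_injective U
      (fun n => ⟨⟨U.coeff n, h n⟩, rfl⟩)
    exact ⟨x, hx⟩
  · rintro ⟨x, rfl⟩ n
    exact (x.coeff n).2

theorem isIntE_mul {U U' : LaurentSeries A} (h : IsIntE N A E U) (h' : IsIntE N A E U') :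
    IsIntE N A E (U * U') := by
  obtain ⟨h1, f, hf, hfU⟩ := h
  obtain ⟨h1', f', hf', hfU'⟩ := h'
  refine ⟨(coeff_mem_iff_range _).mpr
    (Subring.mul_mem _ ((coeff_mem_iff_range _).mp h1) ((coeff_mem_iff_range _).mp h1')),
    f * f', (Fc N E).mul_mem hf hf', ?_⟩
  rw [map_mul, ← hfU, ← hfU']
  rfl

theorem isIntE_sub {U U' : LaurentSeries A} (h : IsIntE N A E U) (h' : IsIntE N A E U') :
    IsIntE N A E (U - U') := by
  obtain ⟨h1, f, hf, hfU⟩ := h
  obtain ⟨h1', f', hf', hfU'⟩ := h'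
  refine ⟨(coeff_mem_iff_range _).mpr
    (Subring.sub_mem _ ((coeff_mem_iff_range _).mp h1) ((coeff_mem_iff_range _).mp h1')),
    f - f', (Fc N E).sub_mem hf hf', ?_⟩
  rw [map_sub, ← hfU, ← hfU']
  rfl

variable {σ : Qb ≃ₐ[ℚ] Qb}

/-- the restriction of `σ` (in the decomposition group of `A`) to `A` -/
def sigA (hσ : σ ∈ A.decompositionSubgroup ℚ) : A →+* A where
  toFun x := ⟨σ x, H708.apply_mem_of_mem_decomposition A hσ x.2⟩
  map_one' := Subtype.ext (map_one σ)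
  map_mul' x y := Subtype.ext (map_mul σ (x : Qb) (y : Qb))
  map_zero' := Subtype.ext (map_zero σ)
  map_add' x y := Subtype.ext (map_add σ (x : Qb) (y : Qb))

@[simp]
theorem coe_sigA (hσ : σ ∈ A.decompositionSubgroup ℚ) (x : A) :
    ((sigA hσ x : A) : Qb) = σ x := rfl

theorem subtype_comp_sigA (hσ : σ ∈ A.decompositionSubgroup ℚ) :
    A.subtype.comp (sigA hσ) = (σ : Qb →+* Qb).comp A.subtype :=
  RingHom.ext fun _ => rfl

theorem coeffMap_subtype_sigA (hσ : σ ∈ A.decompositionSubgroup ℚ) (U : LaurentSeries A) :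
    coeffMap A.subtype (coeffMap (sigA hσ) U)
      = coeffMap (σ : Qb →+* Qb) (coeffMap A.subtype U) := by
  rw [coeffMap_coeffMap, coeffMap_coeffMap, subtype_comp_sigA]

theorem isUnit_sigA (hσ : σ ∈ A.decompositionSubgroup ℚ) {x : A} (hx : IsUnit x) :
    IsUnit (sigA hσ x) := hx.map (sigA hσ)

/-- the reduction of `σ U` is nonzero if that of `U` is. -/
theorem residue_sigA_ne_zero (hσ : σ ∈ A.decompositionSubgroup ℚ) {U : LaurentSeries A}
    (hU : coeffMap (IsLocalRing.residue A) U ≠ 0) :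
    coeffMap (IsLocalRing.residue A) (coeffMap (sigA hσ) U) ≠ 0 := by
  obtain ⟨n, hn⟩ : ∃ n, (coeffMap (IsLocalRing.residue A) U).coeff n ≠ 0 := by
    by_contra h
    simp only [not_exists, not_not] at h
    exact hU (HahnSeries.ext (funext h))
  rw [coeffMap_coeff, ne_eq, IsLocalRing.residue_eq_zero_iff,
    IsLocalRing.mem_maximalIdeal, mem_nonunits_iff, not_not] at hn
  intro h0
  have := congrArg (fun z => z.coeff n) h0
  simp only [coeffMap_coeff, HahnSeries.coeff_zero] at this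
  rw [IsLocalRing.residue_eq_zero_iff, IsLocalRing.mem_maximalIdeal, mem_nonunits_iff] at this
  exact this (isUnit_sigA hσ hn)

theorem isIntE_sigA (hσ : σ ∈ A.decompositionSubgroup ℚ) (hE : ∀ a ∈ E, σ a ∈ E)
    {U : LaurentSeries A} (hU : IsIntE N A E U) : IsIntE N A E (coeffMap (sigA hσ) U) := by
  obtain ⟨h1, f, hf, hfU⟩ := hU
  refine ⟨fun n => hE _ (h1 n), galOm N σ f, galOm_mem_Fc N σ hE hf, ?_⟩
  rw [coe_galOm, hfU, coeffMap_subtype_sigA]

/-- T2: `g_σ` preserves the Gauss valuation ring `VcSet`. -/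
theorem galOm_mem_VcSet (hσ : σ ∈ A.decompositionSubgroup ℚ) (hE : ∀ a ∈ E, σ a ∈ E)
    {f : Om N} (hf : f ∈ VcSet N A E) : galOm N σ f ∈ VcSet N A E := by
  obtain ⟨hfF, U₁, U₂, h₁, h₂, hred, heq⟩ := hf
  refine ⟨galOm_mem_Fc N σ hE hfF, coeffMap (sigA hσ) U₁, coeffMap (sigA hσ) U₂,
    isIntE_sigA hσ hE h₁, isIntE_sigA hσ hE h₂, residue_sigA_ne_zero hσ hred, ?_⟩
  rw [coe_galOm, coeffMap_subtype_sigA, coeffMap_subtype_sigA, ← map_mul, heq]

/-! ### The maximal ideal of the Gauss ring and the inertia group -/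

variable (N A E) in
/-- the maximal ideal of the Gauss valuation ring `VcSet`, as a set: quotients `U₁/U₂` of integral
series with `U₂ ≢ 0` and `U₁ ≡ 0` modulo the maximal ideal of `A`. -/
def McSet : Set (Om N) :=
  {f | f ∈ Fc N E ∧ ∃ U₁ U₂ : LaurentSeries A, IsIntE N A E U₁ ∧ IsIntE N A E U₂ ∧
    coeffMap (IsLocalRing.residue A) U₂ ≠ 0 ∧ coeffMap (IsLocalRing.residue A) U₁ = 0 ∧
    (f : LaurentSeries Qb) * coeffMap A.subtype U₂ = coeffMap A.subtype U₁}

theorem McSet_subset_VcSet : McSet N A E ⊆ VcSet N A E := by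
  rintro f ⟨hfF, U₁, U₂, h₁, h₂, hred, -, heq⟩
  exact ⟨hfF, U₁, U₂, h₁, h₂, hred, heq⟩

theorem coeffMap_subtype_injective :
    Function.Injective (coeffMap (A.subtype : A →+* Qb)) :=
  H602.coeffMap_injective _ Subtype.val_injective

/-- a nonzero element of the maximal ideal `McSet` is not a unit of `VcSet`. -/
theorem inv_not_mem_VcSet {f : Om N} (hf : f ∈ McSet N A E) (h0 : f ≠ 0) :
    f⁻¹ ∉ VcSet N A E := by
  rintro ⟨-, W₁, W₂, -, -, hredW, heqW⟩
  obtain ⟨-, U₁, U₂, -, -, hredU, hU0, heqU⟩ := hf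
  have hf0 : (f : LaurentSeries Qb) ≠ 0 := fun h => h0 (Subtype.ext h)
  have hinv : ((f⁻¹ : Om N) : LaurentSeries Qb) = (f : LaurentSeries Qb)⁻¹ := rfl
  have key : coeffMap A.subtype (U₂ * W₂) = coeffMap A.subtype (U₁ * W₁) := by
    rw [map_mul, map_mul, ← heqU, ← heqW, hinv]
    field_simp
  have key' := coeffMap_subtype_injective key
  have := congrArg (coeffMap (IsLocalRing.residue A)) key'
  rw [map_mul, map_mul, hU0, zero_mul] at this
  exact mul_ne_zero hredU hredW this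

variable {σ : Qb ≃ₐ[ℚ] Qb}

theorem residue_sigA (hσ : σ ∈ A.inertiaSubgroupIn ℚ) (x : A) :
    IsLocalRing.residue A (sigA (H708.mem_decomposition_of_mem_inertiaIn A hσ) x)
      = IsLocalRing.residue A x := by
  rw [← sub_eq_zero, ← map_sub, IsLocalRing.residue_eq_zero_iff,
    ← ValuationSubring.coe_mem_nonunits_iff]
  exact H708.sub_mem_nonunits_of_mem_inertiaIn A hσ x.2

theorem coeffMap_residue_sigA (hσ : σ ∈ A.inertiaSubgroupIn ℚ) (U : LaurentSeries A) :
    coeffMap (IsLocalRing.residue A)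
        (coeffMap (sigA (H708.mem_decomposition_of_mem_inertiaIn A hσ)) U)
      = coeffMap (IsLocalRing.residue A) U := by
  ext n
  simp only [coeffMap_coeff]
  exact residue_sigA hσ _

/-- T3 (constants): for `σ` in the inertia group, `g_σ r - r` is a constant in `𝔪_A ∩ E`. -/
theorem galOm_sub_mem_nonunits (hσ : σ ∈ A.inertiaSubgroupIn ℚ) (hE : ∀ a ∈ E, σ a ∈ E)
    {r : Om N} (hr : r ∈ Rc N A E) :
    ∃ a : Qb, a ∈ A.nonunits ∧ a ∈ E ∧ galOm N σ r - r = algebraMap Qb (Om N) a := by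
  obtain ⟨c, ⟨hcA, hcE⟩, rfl⟩ := hr
  refine ⟨σ c - c, H708.sub_mem_nonunits_of_mem_inertiaIn A hσ hcA, E.sub_mem (hE c hcE) hcE, ?_⟩
  show galOm N σ (algebraMap Qb (Om N) c) - algebraMap Qb (Om N) c = _
  rw [galOm_algebraMap, map_sub]

/-- T3: for `σ` in the inertia group of `A`, `g_σ f - f` lies in the maximal ideal of the Gauss
valuation ring, for every `f` in the Gauss valuation ring. -/
theorem galOm_sub_mem_McSet (hσ : σ ∈ A.inertiaSubgroupIn ℚ) (hE : ∀ a ∈ E, σ a ∈ E)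
    {f : Om N} (hf : f ∈ VcSet N A E) : galOm N σ f - f ∈ McSet N A E := by
  have hσD := H708.mem_decomposition_of_mem_inertiaIn A hσ
  obtain ⟨hfF, U₁, U₂, h₁, h₂, hred, heq⟩ := hf
  have h₁' := isIntE_sigA (N := N) hσD hE h₁
  have h₂' := isIntE_sigA (N := N) hσD hE h₂
  refine ⟨(Fc N E).sub_mem (galOm_mem_Fc N σ hE hfF) hfF,
    coeffMap (sigA hσD) U₁ * U₂ - U₁ * coeffMap (sigA hσD) U₂, U₂ * coeffMap (sigA hσD) U₂,
    isIntE_sub (isIntE_mul h₁' h₂) (isIntE_mul h₁ h₂'), isIntE_mul h₂ h₂', ?_, ?_, ?_⟩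
  · rw [map_mul]
    exact mul_ne_zero hred (residue_sigA_ne_zero hσD hred)
  · rw [map_sub, map_mul, map_mul, coeffMap_residue_sigA hσ, coeffMap_residue_sigA hσ, sub_self]
  · have e1 : ((galOm N σ f : Om N) : LaurentSeries Qb) * coeffMap A.subtype
        (coeffMap (sigA hσD) U₂) = coeffMap A.subtype (coeffMap (sigA hσD) U₁) := by
      rw [coe_galOm, coeffMap_subtype_sigA, coeffMap_subtype_sigA, ← map_mul, heq]
    have hsub : ((galOm N σ f - f : Om N) : LaurentSeries Qb)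
        = ((galOm N σ f : Om N) : LaurentSeries Qb) - (f : LaurentSeries Qb) := rfl
    rw [hsub, map_mul, map_sub, map_mul, map_mul, ← e1, ← heq]
    ring

end series

/-! ## T4, T5: finite normal fields of definition -/

section normal

theorem normal_Qb : Normal ℚ Qb := by
  haveI : Algebra.IsAlgebraic ℚ Qb := AlgebraicClosure.isAlgebraic ℚ
  haveI : IsAlgClosure ℚ Qb := ⟨inferInstance, inferInstance⟩
  exact IsAlgClosure.normal ℚ Qb

/-- T4: every finite extension `E₀` of `ℚ` inside `Q̄` lies in a finite extension `E` that is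
stable under every `σ ∈ Gal(Q̄/ℚ)` (the normal closure). -/
theorem exists_stable_finite (E₀ : IntermediateField ℚ Qb) [FiniteDimensional ℚ E₀] :
    ∃ E : IntermediateField ℚ Qb, FiniteDimensional ℚ E ∧ E₀ ≤ E ∧
      ∀ σ : Qb ≃ₐ[ℚ] Qb, ∀ a ∈ E, σ a ∈ E := by
  haveI := normal_Qb
  refine ⟨IntermediateField.normalClosure ℚ E₀ Qb, inferInstance,
    IntermediateField.le_normalClosure E₀, fun σ a ha => ?_⟩
  have h := (IntermediateField.normal_iff_forall_map_le'
    (K := IntermediateField.normalClosure ℚ E₀ Qb)).mp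
      (normalClosure.normal ℚ E₀ Qb) σ
  exact h ⟨a, ha, rfl⟩

theorem exists_stable_finite_of_finset (T : Finset Qb) :
    ∃ E : IntermediateField ℚ Qb, FiniteDimensional ℚ E ∧ (∀ a ∈ T, a ∈ E) ∧
      ∀ σ : Qb ≃ₐ[ℚ] Qb, ∀ a ∈ E, σ a ∈ E := by
  haveI : Algebra.IsAlgebraic ℚ Qb := AlgebraicClosure.isAlgebraic ℚ
  haveI hfin : FiniteDimensional ℚ (IntermediateField.adjoin ℚ (T : Set Qb)) :=
    IntermediateField.finiteDimensional_adjoin
      (fun x _ => (Algebra.IsAlgebraic.isAlgebraic x).isIntegral)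
  obtain ⟨E, h1, h3, h4⟩ := exists_stable_finite (IntermediateField.adjoin ℚ (T : Set Qb))
  exact ⟨E, h1, fun a ha => h3 (IntermediateField.subset_adjoin ℚ _ ha), h4⟩

end normal

/-! ## T5: every element of `Ω` lies in `Fc N E` for a finite, Galois-stable `E` -/

section descent

theorem Ec_mono {E E' : IntermediateField ℚ Qb} (h : E ≤ E') : Ec N E ≤ Ec N E' := by
  rintro f ⟨c, hc, rfl⟩
  exact ⟨c, h hc, rfl⟩

theorem Fc_mono {E E' : IntermediateField ℚ Qb} (h : E ≤ E') : Fc N E ≤ Fc N E' := by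
  refine Subfield.closure_le.mpr ?_
  rintro y (hy | hy)
  · exact Subfield.subset_closure (Or.inl (Ec_mono N h hy))
  · exact Subfield.subset_closure (Or.inr hy)

/-- the image of `Fc N E` in `Q̄((q))` -/
def FcL (E : IntermediateField ℚ Qb) : Subfield (LaurentSeries Qb) :=
  (Fc N E).map (modularFunctionFieldBar N).toSubfield.subtype

theorem mem_FcL {E : IntermediateField ℚ Qb} {x : LaurentSeries Qb} :
    x ∈ FcL N E ↔ ∃ f ∈ Fc N E, (f : LaurentSeries Qb) = x := Iff.rfl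

theorem FcL_mono {E E' : IntermediateField ℚ Qb} (h : E ≤ E') : FcL N E ≤ FcL N E' := by
  rintro x ⟨f, hf, rfl⟩
  exact ⟨f, Fc_mono N h hf, rfl⟩

theorem algebraMap_mem_FcL {E : IntermediateField ℚ Qb} {a : Qb} (ha : a ∈ E) :
    algebraMap Qb (LaurentSeries Qb) a ∈ FcL N E :=
  ⟨algebraMap Qb (Om N) a, Subfield.subset_closure (Or.inl ⟨a, ha, rfl⟩), rfl⟩

theorem coeffEmb_mem_FcL (E : IntermediateField ℚ Qb) {z : LaurentSeries ℚ}
    (hz : z ∈ modularFunctionFieldFull N) : coeffEmb Qb z ∈ FcL N E := by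
  have h1 : Set.range (algebraMap ℚ (LaurentSeries ℚ))
      ⊆ ((FcL N E).comap (coeffEmb Qb : LaurentSeries ℚ →+* LaurentSeries Qb) :
        Set (LaurentSeries ℚ)) := by
    rintro _ ⟨c, rfl⟩
    show coeffEmb Qb (algebraMap ℚ (LaurentSeries ℚ) c) ∈ FcL N E
    have : coeffEmb Qb (algebraMap ℚ (LaurentSeries ℚ) c)
        = algebraMap Qb (LaurentSeries Qb) (algebraMap ℚ Qb c) :=
      H602.coeffMap_algebraMap' (algebraMap ℚ Qb) c
    rw [this]
    exact algebraMap_mem_FcL N (E.algebraMap_mem c)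
  have h2 : divisorExpansions N
      ⊆ ((FcL N E).comap (coeffEmb Qb : LaurentSeries ℚ →+* LaurentSeries Qb) :
        Set (LaurentSeries ℚ)) := by
    rintro _ ⟨d, hne, hd, rfl⟩
    haveI := hne
    exact ⟨jd N d hd, Subfield.subset_closure (Or.inr ⟨d, hne, hd, rfl⟩), rfl⟩
  have hle : (modularFunctionFieldFull N).toSubfield
      ≤ (FcL N E).comap (coeffEmb Qb : LaurentSeries ℚ →+* LaurentSeries Qb) :=
    IntermediateField.adjoin_le_subfield ℚ _ h1 h2
  exact hle hz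

/-- every element of `Ω` lies in `Fc N E` for some finite extension `E` of `ℚ`. -/
theorem exists_finite_mem_FcL {x : LaurentSeries Qb} (hx : x ∈ modularFunctionFieldBar N) :
    ∃ E : IntermediateField ℚ Qb, FiniteDimensional ℚ E ∧ x ∈ FcL N E := by
  haveI : Algebra.IsAlgebraic ℚ Qb := AlgebraicClosure.isAlgebraic ℚ
  rw [mem_laurentBaseChange_iff] at hx
  induction hx using Subfield.closure_induction with
  | mem y hy =>
      rcases hy with ⟨a, rfl⟩ | ⟨z, hz, rfl⟩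
      · exact ⟨IntermediateField.adjoin ℚ {a}, IntermediateField.adjoin.finiteDimensional
          (Algebra.IsAlgebraic.isAlgebraic a).isIntegral,
          algebraMap_mem_FcL N (IntermediateField.mem_adjoin_simple_self ℚ a)⟩
      · exact ⟨⊥, inferInstance, coeffEmb_mem_FcL N ⊥ hz⟩
  | one => exact ⟨⊥, inferInstance, one_mem _⟩
  | add x y _ _ hx hy =>
      obtain ⟨E₁, h₁, hx⟩ := hx
      obtain ⟨E₂, h₂, hy⟩ := hy
      exact ⟨E₁ ⊔ E₂, IntermediateField.finiteDimensional_sup E₁ E₂,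
        add_mem (FcL_mono N le_sup_left hx) (FcL_mono N le_sup_right hy)⟩
  | neg x _ hx =>
      obtain ⟨E₁, h₁, hx⟩ := hx
      exact ⟨E₁, h₁, neg_mem hx⟩
  | inv x _ hx =>
      obtain ⟨E₁, h₁, hx⟩ := hx
      exact ⟨E₁, h₁, inv_mem hx⟩
  | mul x y _ _ hx hy =>
      obtain ⟨E₁, h₁, hx⟩ := hx
      obtain ⟨E₂, h₂, hy⟩ := hy
      exact ⟨E₁ ⊔ E₂, IntermediateField.finiteDimensional_sup E₁ E₂,
        mul_mem (FcL_mono N le_sup_left hx) (FcL_mono N le_sup_right hy)⟩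

theorem exists_finite_mem_Fc (f : Om N) :
    ∃ E : IntermediateField ℚ Qb, FiniteDimensional ℚ E ∧ f ∈ Fc N E := by
  obtain ⟨E, hE, g, hg, hgf⟩ := exists_finite_mem_FcL N f.2
  have : g = f := Subtype.ext hgf
  exact ⟨E, hE, this ▸ hg⟩

/-- **T5**: for finitely many constants `T ⊆ Q̄` and finitely many functions `Φ ⊆ Ω` there is a
finite extension `E` of `ℚ` in `Q̄`, stable under all of `Gal(Q̄/ℚ)`, with `T ⊆ E` and
`Φ ⊆ Fc N E = E(j_d : d ∣ N)`. -/
theorem exists_stable_finite_mem_Fc (T : Finset Qb) (Φ : Finset (Om N)) :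
    ∃ E : IntermediateField ℚ Qb, FiniteDimensional ℚ E ∧ (∀ a ∈ T, a ∈ E) ∧
      (∀ f ∈ Φ, f ∈ Fc N E) ∧ ∀ σ : Qb ≃ₐ[ℚ] Qb, ∀ a ∈ E, σ a ∈ E := by
  classical
  -- first a finite `E₀` containing `T` with `Φ ⊆ Fc N E₀`
  have step : ∃ E₀ : IntermediateField ℚ Qb, FiniteDimensional ℚ E₀ ∧ (∀ a ∈ T, a ∈ E₀) ∧
      ∀ f ∈ Φ, f ∈ Fc N E₀ := by
    induction Φ using Finset.induction_on with
    | empty =>
        obtain ⟨E, h1, h2, -⟩ := exists_stable_finite_of_finset T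
        exact ⟨E, h1, h2, fun f hf => absurd hf (Finset.notMem_empty f)⟩
    | insert f Φ _ ih =>
        obtain ⟨E₁, h₁, hT, hΦ⟩ := ih
        obtain ⟨E₂, h₂, hf⟩ := exists_finite_mem_Fc N f
        refine ⟨E₁ ⊔ E₂, IntermediateField.finiteDimensional_sup E₁ E₂,
          fun a ha => (le_sup_left : E₁ ≤ E₁ ⊔ E₂) (hT a ha), fun g hg => ?_⟩
        rcases Finset.mem_insert.mp hg with rfl | hg
        · exact Fc_mono N le_sup_right hf
        · exact Fc_mono N le_sup_left (hΦ g hg)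
  obtain ⟨E₀, h₀, hT, hΦ⟩ := step
  obtain ⟨E, h1, h2, h3⟩ := exists_stable_finite E₀
  exact ⟨E, h1, fun a ha => h2 (hT a ha), fun f hf => Fc_mono N h2 (hΦ f hf), h3⟩

end descent

end Fermat.Agent.A2.H549
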